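/-
S15, node FL-4 (invariant class ⟹ invariant divisor), abstract part.  Owner: helper259.

`K` algebraically closed of characteristic zero, `F` a function field over `K`, `H` a group of
semilinear automorphisms of `F` fixing a place `v₀` ("a rational point").  If the class of a divisor
`D₀` (of degree zero, with finite `H`-orbit) is `H`-invariant then it contains an `H`-invariant
divisor.

Proof (averaging; no Hilbert 90): wlog `D₀ v₀ = 0`.  For `D'` in the orbit `O` of `D₀` let `h_{D'}` be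
THE function with divisor `D' - D₀` and value `1` at `v₀`; `k := ∑_{D' ∈ O} h_{D'}`.  Then
`τ h_{D'} = h_{τ D'} / h_{τ D₀}`, hence `τ k = k / h_{τ D₀}`, `k(v₀) = |O| ≠ 0`, and `D₀ + div k` is
invariant.
-/
import Fermat.Agent.S19.Weil.Nondeg
import Fermat.Agent.S27.LocalBasis

set_option autoImplicit false

noncomputable section

namespace Fermat.Agent.S15.Inv

open AlgebraicCurve Fermat.Agent.S24.FF Fermat.Agent.S27 Fermat.Agent.S19.Weil

variable {K F : Type*} [Field K] [Field F] [Algebra K F] [IsAlgClosed K] [CharZero K] [IsFF1 K F]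

omit [CharZero K] in
/-- A principal divisor avoiding `v₀` is the divisor of a function with value `1` at `v₀`. -/
theorem exists_normalised {v₀ : Place K F} {E : Divisor K F} (hdeg : Divisor.degree E = 0)
    (hcls : cls E = 0) (h0 : E v₀ = 0) : ∃ h : F, IsDivOf E h ∧ IsVal v₀ h 1 := by
  obtain ⟨φ, hφ⟩ := (cls_eq_zero_iff hdeg).1 hcls
  have hord : v₀.ord φ = 0 := by rw [← hφ.2, h0]
  have ha0 : ev v₀ φ ≠ 0 := ev_ne_zero_of_ord_eq_zero hφ.1 hord
  refine ⟨algebraMap K F (ev v₀ φ)⁻¹ * φ, ?_, ?_⟩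
  · have h := rep_isDivOf_mul (rep_isDivOf_const (F := F) (inv_ne_zero ha0)) hφ
    rwa [zero_add] at h
  · have h := (isVal_algebraMap (F := F) v₀ (ev v₀ φ)⁻¹).mul (isVal_ev hord.ge)
    rwa [inv_mul_cancel₀ ha0] at h

/-- Uniqueness of the normalised function. -/
theorem normalised_unique {v₀ : Place K F} {E : Divisor K F} {h h' : F} (h1 : IsDivOf E h)
    (h2 : IsVal v₀ h 1) (h1' : IsDivOf E h') (h2' : IsVal v₀ h' 1) : h = h' := by
  have hord : ∀ v : Place K F, 0 ≤ v.ord (h * h'⁻¹) := fun v => by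
    rw [v.ord_mul h1.1 (inv_ne_zero h1'.1), v.ord_inv, ← h1.2, ← h1'.2, add_neg_cancel]
  obtain ⟨c, hc⟩ := eq_algebraMap_of_forall_ord_nonneg (K := K) _ hord
  have h3 : IsVal v₀ (h * h'⁻¹) (1 * 1⁻¹) := h2.mul (h2'.inv one_ne_zero)
  rw [hc] at h3
  have hc1 : c = 1 * 1⁻¹ := (isVal_algebraMap v₀ c).unique h3
  rw [hc1, inv_one, mul_one, map_one] at hc
  rw [← mul_one h, ← inv_mul_cancel₀ h1'.1, ← mul_assoc, hc, one_mul]

omit [IsAlgClosed K] [CharZero K] [IsFF1 K F] in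
theorem isVal_smul (g : SemilinearAut K F) {v : Place K F} {f : F} {c : K} (h : IsVal v f c) :
    IsVal (g • v) (g • f) (SemilinearAut.baseAut g c) := by
  rcases h with h1 | h1
  · left
    rw [h1]
    exact SemilinearAut.smul_algebraMap g _
  · right
    rw [← SemilinearAut.smul_algebraMap, ← smul_sub, SemilinearAut.ord_smul]
    exact h1

/-- **FL-4, core.** -/
theorem exists_invariant_move (H : Subgroup (SemilinearAut K F)) {v₀ : Place K F}
    (hv₀ : ∀ s ∈ H, s • v₀ = v₀) {D₀ : Divisor K F} (hdeg : Divisor.degree D₀ = 0)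
    (h0 : D₀ v₀ = 0) (hfin : (Set.range fun s : H => (s : SemilinearAut K F) • D₀).Finite)
    (hinv : ∀ s ∈ H, s • cls D₀ = cls D₀) :
    ∃ (k : F) (G : Divisor K F), IsDivOf G k ∧ ∀ s ∈ H, s • (D₀ + G) = D₀ + G := by
  classical
  set O : Finset (Divisor K F) := hfin.toFinset with hO
  have memO : ∀ D', D' ∈ O ↔ ∃ s ∈ H, s • D₀ = D' := by
    intro D'
    rw [hO, Set.Finite.mem_toFinset, Set.mem_range]
    constructor
    · rintro ⟨s, rfl⟩
      exact ⟨s, s.2, rfl⟩
    · rintro ⟨s, hs, rfl⟩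
      exact ⟨⟨s, hs⟩, rfl⟩
  have hD₀O : D₀ ∈ O := (memO _).2 ⟨1, H.one_mem, one_smul _ _⟩
  have smulO : ∀ s ∈ H, ∀ D' ∈ O, s • D' ∈ O := by
    intro s hs D' hD'
    obtain ⟨t, ht, rfl⟩ := (memO _).1 hD'
    exact (memO _).2 ⟨s * t, H.mul_mem hs ht, mul_smul _ _ _⟩
  have key : ∀ D' ∈ O, ∃ h : F, IsDivOf (D' - D₀) h ∧ IsVal v₀ h 1 := by
    intro D' hD'
    obtain ⟨s, hs, rfl⟩ := (memO _).1 hD'
    have hd : Divisor.degree (s • D₀) = 0 := by rw [SemilinearAut.degree_smul, hdeg]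
    refine exists_normalised (by rw [map_sub, hd, hdeg, sub_zero]) ?_ ?_
    · rw [cls_sub hd hdeg, cls_smul s hdeg, hinv s hs, sub_self]
    · have h1 : s⁻¹ • v₀ = v₀ := hv₀ _ (H.inv_mem hs)
      rw [Finsupp.sub_apply, SemilinearAut.divisor_smul_apply, h1, h0, sub_zero]
  choose! hf hf1 hf2 using key
  set k : F := ∑ D' ∈ O, hf D' with hk
  have hkval : IsVal v₀ k (∑ _D' ∈ O, (1 : K)) := LocalBasis.isVal_finset_sum O hf _ hf2
  have hcard : (∑ _D' ∈ O, (1 : K)) ≠ 0 := by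
    rw [Finset.sum_const, nsmul_eq_mul, mul_one, Nat.cast_ne_zero]
    exact Finset.card_ne_zero_of_mem hD₀O
  have hk0 : k ≠ 0 := (hkval.ord_eq_zero hcard).1
  obtain ⟨G, hG⟩ := exists_isDivOf (K := K) k hk0
  -- the transformation rule
  have rule : ∀ s ∈ H, ∀ D' ∈ O, s • hf D' * hf (s • D₀) = hf (s • D') := by
    intro s hs D' hD'
    have a1 : IsDivOf (s • D' - D₀) (s • hf D' * hf (s • D₀)) := by
      have h := rep_isDivOf_mul (IsDivOf.smul s (hf1 D' hD')) (hf1 _ (smulO s hs _ hD₀O))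
      rwa [smul_sub, sub_add_sub_cancel] at h
    have a2 : IsVal v₀ (s • hf D' * hf (s • D₀)) 1 := by
      have h' := isVal_smul s (hf2 D' hD')
      rw [hv₀ s hs, map_one] at h'
      have h := h'.mul (hf2 _ (smulO s hs _ hD₀O))
      rwa [mul_one] at h
    exact normalised_unique a1 a2 (hf1 _ (smulO s hs _ hD')) (hf2 _ (smulO s hs _ hD'))
  have hsk : ∀ s ∈ H, s • k * hf (s • D₀) = k := by
    intro s hs
    rw [hk, Finset.smul_sum, Finset.sum_mul, Finset.sum_congr rfl (rule s hs)]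
    refine Finset.sum_bij' (fun D' _ => s • D') (fun D' _ => s⁻¹ • D') (fun D' hD' => smulO s hs _ hD')
      (fun D' hD' => smulO _ (H.inv_mem hs) _ hD') (fun D' _ => inv_smul_smul _ _)
      (fun D' _ => smul_inv_smul _ _) (fun D' _ => rfl)
  refine ⟨k, G, hG, fun s hs => ?_⟩
  have b1 : IsDivOf (s • G + (s • D₀ - D₀)) k := by
    have h := rep_isDivOf_mul (IsDivOf.smul s hG) (hf1 _ (smulO s hs _ hD₀O))
    rwa [hsk s hs] at h
  have b2 : s • G + (s • D₀ - D₀) = G := by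
    ext v
    rw [b1.2, hG.2]
  rw [smul_add]
  nth_rewrite 2 [← b2]
  abel

/-- **FL-4** (abstract form): an invariant class contains an invariant divisor. -/
theorem exists_invariant_rep (H : Subgroup (SemilinearAut K F)) {v₀ : Place K F}
    (hv₀ : ∀ s ∈ H, s • v₀ = v₀)
    (hfin : ∀ D : Divisor K F, (Set.range fun s : H => (s : SemilinearAut K F) • D).Finite)
    {x : Pic0 K F} (hx : ∀ s ∈ H, s • x = x) :
    ∃ D : Divisor K F, Divisor.degree D = 0 ∧ cls D = x ∧ ∀ s ∈ H, s • D = D := by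
  obtain ⟨D₀, hdeg, hcls, hD₀⟩ := nondeg_exists_rep x {v₀}
  obtain ⟨k, G, hG, h⟩ := exists_invariant_move H hv₀ hdeg (hD₀ v₀ (Finset.mem_singleton_self _))
    (hfin D₀) (by rw [hcls]; exact hx)
  refine ⟨D₀ + G, by rw [map_add, hdeg, hG.degree, add_zero], ?_, h⟩
  rw [cls_add hdeg hG.degree, (cls_eq_zero_iff hG.degree).2 ⟨k, hG⟩, add_zero, hcls]

end Fermat.Agent.S15.Inv

end
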