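/-
S15, block Ext/Inv: characters of a subgroup are represented by a nondegenerate pairing on the
ambient finite group.  Mathlib only.  Owner: helper259.
-/
import Mathlib

set_option autoImplicit false

noncomputable section

namespace Fermat.Agent.S15.Inv

/-- Let `e` be a bimultiplicative pairing on the finite abelian group `V'`, nondegenerate on the right,
`ι : V → V'` injective and `χ` a character of `V`.  Then `χ = e (ι ·) w` for some `w`. -/
theorem exists_rep_char {K : Type*} [Field K] [IsAlgClosed K] [CharZero K]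
    {V V' : Type*} [AddCommGroup V] [AddCommGroup V'] [Finite V']
    (e : V' → V' → K) (he0 : ∀ x y, e x y ≠ 0)
    (hl : ∀ x x' y, e (x + x') y = e x y * e x' y) (hr : ∀ x y y', e x (y + y') = e x y * e x y')
    (hnd : ∀ y, (∀ x, e x y = 1) → y = 0)
    (ι : V →+ V') (hι : Function.Injective ι)
    (χ : V → K) (hχ0 : ∀ x, χ x ≠ 0) (hχ : ∀ x x', χ (x + x') = χ x * χ x') :
    ∃ w : V', ∀ x, χ x = e (ι x) w := by
  classical
  have : NeZero (Monoid.exponent (Multiplicative V')) := ⟨Monoid.exponent_ne_zero_of_finite⟩
  have hl0 : ∀ y, e 0 y = 1 := fun y => by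
    have h := hl 0 0 y
    rw [add_zero] at h
    exact (mul_eq_left₀ (he0 0 y)).1 h.symm
  have hχ1 : χ 0 = 1 := by
    have h := hχ 0 0
    rw [add_zero] at h
    exact (mul_eq_left₀ (hχ0 0)).1 h.symm
  -- the map to the dual
  let Φ : V' → (Multiplicative V' →* Kˣ) := fun w =>
    { toFun := fun x => Units.mk0 (e x.toAdd w) (he0 _ _)
      map_one' := Units.ext (hl0 w)
      map_mul' := fun x y => Units.ext (hl _ _ _) }
  have hΦ : Function.Injective Φ := by
    intro w w' h
    rw [← sub_eq_zero]
    refine hnd _ fun x => ?_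
    have h1 : e x w = e x w' := congrArg Units.val (DFunLike.congr_fun h (Multiplicative.ofAdd x))
    have h2 := hr x (w - w') w'
    rw [sub_add_cancel, h1] at h2
    exact (mul_eq_right₀ (he0 x w')).1 h2.symm
  have hcard : Nat.card (Multiplicative V' →* Kˣ) = Nat.card V' :=
    (CommGroup.card_monoidHom_of_hasEnoughRootsOfUnity (Multiplicative V') K).trans
      (Nat.card_congr Multiplicative.toAdd)
  have : Finite (Multiplicative V' →* Kˣ) :=
    Nat.finite_of_card_ne_zero (by rw [hcard]; exact Nat.card_pos.ne')
  have hsurj : Function.Surjective Φ := (hΦ.bijective_of_nat_card_le hcard.le).2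
  -- the character of the image
  let ιm : Multiplicative V →* Multiplicative V' := AddMonoidHom.toMultiplicative ι
  have hιm : Function.Injective ιm := fun x y h => hι h
  let χm : Multiplicative V →* Kˣ :=
    { toFun := fun x => Units.mk0 (χ x.toAdd) (hχ0 _)
      map_one' := Units.ext hχ1
      map_mul' := fun x y => Units.ext (hχ _ _) }
  obtain ⟨ψ, hψ⟩ := MonoidHom.domRestrict_surjective (M := K) ιm.range
    (χm.comp (MonoidHom.ofInjective hιm).symm.toMonoidHom)
  obtain ⟨w, hw⟩ := hsurj ψ
  refine ⟨w, fun x => ?_⟩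
  have h1 : ψ (ιm (Multiplicative.ofAdd x)) = χm (Multiplicative.ofAdd x) := by
    have h2 := DFunLike.congr_fun hψ (MonoidHom.ofInjective hιm (Multiplicative.ofAdd x))
    rw [MonoidHom.comp_apply, MulEquiv.coe_toMonoidHom, MulEquiv.symm_apply_apply] at h2
    exact h2
  rw [← hw] at h1
  exact (congrArg Units.val h1).symm

end Fermat.Agent.S15.Inv

end
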