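/-
S15, node FL-4 (invariant class ⟹ invariant divisor), instance for `J₀(N)`.  Owner: helper259.

`H` any subgroup of `G_ℚ` (e.g. `⊤`, a decomposition group, an inertia group).  A class of `J₀(N)`
fixed by `H` is the class of a divisor of degree zero fixed by `H`.  (Rational point: the cusp `∞`.)
-/
import Fermat.Agent.S15.Inv.Abstract
import Fermat.Agent.S19.Glue.Defs
import Fermat.Agent.S17.W.Cusp

set_option autoImplicit false

noncomputable section

namespace Fermat.Agent.S15.Inv

open ModularCurve AlgebraicCurve Fermat.Agent.S19 Fermat.Agent.S19.Glue Fermat.Agent.S27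

/-- The Galois orbit of a divisor is finite. -/
theorem finite_orbit (N : ℕ) [NeZero N] (D : Divisor Qb (modularFunctionFieldBar N)) :
    (Set.range fun σ : Gal => gal N σ • D).Finite := by
  obtain ⟨L, hL, h⟩ := S17.W.exists_finite_level_divisor N D
  have hfac : Function.FactorsThrough (fun σ : Gal => gal N σ • D)
      (fun σ : Gal => (σ : Qb →ₐ[ℚ] Qb).comp L.val) := by
    intro σ τ hστ
    have h1 : ∀ x ∈ L, (τ⁻¹ * σ) x = x := by
      intro x hx
      have h2 := DFunLike.congr_fun hστ (⟨x, hx⟩ : L)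
      have h3 : σ x = τ x := h2
      rw [AlgEquiv.mul_apply, h3]
      exact τ.symm_apply_apply x
    have h4 := h (τ⁻¹ * σ) h1
    show gal N σ • D = gal N τ • D
    rw [map_mul, mul_smul, map_inv, inv_smul_eq_iff] at h4
    exact h4
  obtain ⟨g, hg⟩ := (Function.factorsThrough_iff _).1 hfac
  rw [hg]
  exact (Set.finite_range g).subset (Set.range_comp_subset_range _ g)

/-- **FL-4** for `J₀(N)`: a class fixed by a subgroup `H` of `G_ℚ` contains a divisor fixed by `H`. -/
theorem exists_invariant_divisor (N : ℕ) [NeZero N] (H : Subgroup Gal) {x : JZero N}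
    (hx : ∀ σ ∈ H, σ • x = x) :
    ∃ D : Divisor Qb (modularFunctionFieldBar N), Divisor.degree D = 0 ∧ cls D = x ∧
      ∀ σ ∈ H, gal N σ • D = D := by
  have := isFF1 N
  obtain ⟨D, h1, h2, h3⟩ := exists_invariant_rep
    (H.map (arithmeticGalois (L := Qb) (modularFunctionFieldFull N))) (v₀ := S17.W.cusp N)
    (by
      rintro _ ⟨σ, -, rfl⟩
      exact S17.W.smul_cusp N σ)
    (fun D => (finite_orbit N D).subset (by
      rintro _ ⟨⟨_, σ, -, rfl⟩, rfl⟩
      exact ⟨σ, rfl⟩))
    (x := x)
    (by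
      rintro _ ⟨σ, hσ, rfl⟩
      exact hx σ hσ)
  exact ⟨D, h1, h2, fun σ hσ => h3 _ ⟨σ, hσ, rfl⟩⟩

end Fermat.Agent.S15.Inv

end
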