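/-
S15, block Ext/Inv: from the geometric statement `ExtStmt` (extended Weil pairing, helper92, S15/Ext)
to the contract `LocFL N r`.  Owner: helper259.

* `ExtStmt`  : the statement at a level `M` carrying a `BaseData M ℓ` (with `Ext.IsQuad`), for a division point `R`
  of the class of an inertia-invariant DIVISOR.
* `flAt_of_ext` : FL-4 removes the divisor.
* `FLAt.descend` : level lowering `N q → N` (needed for `ℓ = 2, 3`): `α^*` is injective on torsion, additive and
  equivariant, and every character of `J₀(N)[n]` is `e_n(α^* ·, w')` at level `N q`.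
* `locFL_of_ext` : the contract.
-/
import Fermat.Agent.S15.Contracts
import Fermat.Agent.S15.Inv.Level
import Fermat.Agent.S15.Inv.Char
import Fermat.Agent.S19.Glue.Pairing
import Fermat.Agent.S19.Glue.Level
import Fermat.Agent.S19.Loc.Calc
import Fermat.Agent.S15.Ext.Quad

set_option autoImplicit false

noncomputable section

namespace Fermat.Agent.S15.Inv

open ModularCurve AlgebraicCurve Fermat.Agent.S19 Fermat.Agent.S19.Glue Fermat.Agent.S27
  Fermat.Agent.S19.Weil

section Weil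

open Fermat.Agent.S24.FF

variable {K F : Type*} [Field K] [Field F] [Algebra K F] [IsAlgClosed K] [CharZero K] [IsFF1 K F]
  [NonConst K F]

theorem weil_swap {n : ℕ} (hn : 0 < n) {x y : Pic0 K F} (hx : (n : ℤ) • x = 0)
    (hy : (n : ℤ) • y = 0) : weil n y x = (weil n x y)⁻¹ := by
  obtain ⟨b, -⟩ := exists_torsRep hy (∅ : Finset (Place K F))
  obtain ⟨a, ha⟩ := exists_disjoint_torsRep hx b
  rw [weil_eq hn a b ha, weil_eq hn b a ha.symm, weilRep_swap]

theorem weil_add_right {n : ℕ} (hn : 0 < n) {x y y' : Pic0 K F} (hx : (n : ℤ) • x = 0)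
    (hy : (n : ℤ) • y = 0) (hy' : (n : ℤ) • y' = 0) :
    weil n x (y + y') = weil n x y * weil n x y' := by
  rw [weil_swap hn (x := y + y') (by rw [zsmul_add, hy, hy', add_zero]) hx,
    weil_add_left hn hy hy' hx, weil_swap hn hy hx, weil_swap hn hy' hx, mul_inv]

end Weil

/-- The FL statement at level `M`, exponent `n`, valuation ring `A`. -/
def FLAt (M n : ℕ) (A : ValuationSubring Qb) : Prop :=
  ∀ R : JZero M, (∀ σ ∈ A.inertiaSubgroupIn ℚ, σ • ((n : ℤ) • R) = (n : ℤ) • R) →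
    ∀ w : JZero M, (n : ℤ) • w = 0 → IsSI A (fun s : Gal => weil n (s • R - R) (s • w))

/-- **The deliverable of S15/Ext** (extended Weil pairing + INT). -/
def ExtStmt : Prop :=
  ∀ (M ℓ : ℕ) [NeZero M] [Fact ℓ.Prime], ¬ ℓ ∣ M → ∀ D : S18.BaseData M ℓ, Ext.IsQuad D →
    ∀ A : ValuationSubring Qb, A.LiesOverPrime ℓ → ∀ n : ℕ, 0 < n →
      ∀ DP : Divisor Qb (modularFunctionFieldBar M), Divisor.degree DP = 0 →
        (∀ σ ∈ A.inertiaSubgroupIn ℚ, gal M σ • DP = DP) →
          ∀ R : JZero M, (n : ℤ) • R = cls DP → ∀ w : JZero M, (n : ℤ) • w = 0 →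
            IsSI A (fun s : Gal => weil n (s • R - R) (s • w))

theorem flAt_of_ext (H : ExtStmt) (M ℓ : ℕ) [NeZero M] [Fact ℓ.Prime] (hℓ : ¬ ℓ ∣ M)
    (D : S18.BaseData M ℓ) (hD : Ext.IsQuad D) (A : ValuationSubring Qb)
    (hA : A.LiesOverPrime ℓ) {n : ℕ} (hn : 0 < n) : FLAt M n A := by
  intro R hR w hw
  obtain ⟨DP, h1, h2, h3⟩ := exists_invariant_divisor M (A.inertiaSubgroupIn ℚ) hR
  exact H M ℓ hℓ D hD A hA n hn DP h1 h3 R h2.symm w hw

/-- Level lowering. -/
theorem FLAt.descend (N q : ℕ) [NeZero N] [NeZero q] (hq : q.Prime) (hqN : ¬ q ∣ N) {n : ℕ}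
    (hn : 0 < n) {A : ValuationSubring Qb} (H : FLAt (N * q) n A) : FLAt N n A := by
  intro R hR w hw
  have := isFF1 N
  have := nonConst N
  have := isFF1 (N * q)
  have := nonConst (N * q)
  have := finite_tors (N * q) n hn
  -- the character `e_n(·, w)` at level `N q`
  obtain ⟨w', hw'⟩ := exists_rep_char (V := Tors N n) (V' := Tors (N * q) n) (iota (N * q) n)
    (iota_ne_zero (N * q) n hn) (iota_add (N * q) n hn)
    (fun x y y' => weil_add_right hn (tors_smul_eq_zero _ _ x) (tors_smul_eq_zero _ _ y)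
      (tors_smul_eq_zero _ _ y'))
    (fun y hy => by
      by_contra hy0
      have hy0' : (y : JZero (N * q)) ≠ 0 := fun h0 => hy0 (Subtype.ext h0)
      obtain ⟨z, hz, hz1⟩ := weil_nondegenerate (pic0Divisible Qb nonempty_embedding) hn
        (tors_smul_eq_zero _ _ y) hy0'
      apply hz1
      have h1 : weil n z (y : JZero (N * q)) = 1 := hy ⟨z, Pic0.mem_torsion.2 hz⟩
      rw [weil_swap hn hz (tors_smul_eq_zero _ _ y), h1, inv_one])
    (levelMap N q n) (levelMap_injective N q hq hqN hn)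
    (fun x => weil n (x : JZero N) w) (fun x => weil_ne_zero hn _ _)
    (fun x x' => weil_add_left hn (tors_smul_eq_zero _ _ x) (tors_smul_eq_zero _ _ x') hw)
  have hR' : ∀ σ ∈ A.inertiaSubgroupIn ℚ,
      σ • ((n : ℤ) • pic0Alpha N q R) = (n : ℤ) • pic0Alpha N q R := by
    intro σ hσ
    rw [← map_zsmul, ← pic0Alpha_smul, hR σ hσ]
  refine (H (pic0Alpha N q R) hR' (w' : JZero (N * q)) (tors_smul_eq_zero _ _ w')).congr
    fun s hs => ?_
  -- `x = s⁻¹ (s R - R)`
  have hx : (n : ℤ) • (R - s⁻¹ • R) = 0 := by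
    have h1 := hR s⁻¹ (inv_mem hs)
    have h2 : s⁻¹ • ((n : ℤ) • R) = (n : ℤ) • (s⁻¹ • R) := SemilinearAut.smul_zsmul (gal N s⁻¹) n R
    rw [zsmul_sub, ← h2, h1, sub_self]
  have e1 : s • R - R = s • (R - s⁻¹ • R) := by rw [smul_sub, smul_inv_smul]
  have e2 : s • pic0Alpha N q R - pic0Alpha N q R = s • pic0Alpha N q (R - s⁻¹ • R) := by
    rw [← pic0Alpha_smul N q s (R - s⁻¹ • R), ← e1, map_sub, pic0Alpha_smul]
  have hx' : (n : ℤ) • pic0Alpha N q (R - s⁻¹ • R) = 0 := by rw [← map_zsmul, hx, map_zero]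
  have h3 := hw' ⟨R - s⁻¹ • R, Pic0.mem_torsion.2 hx⟩
  have h4 : weil n (R - s⁻¹ • R) w = weil n (pic0Alpha N q (R - s⁻¹ • R)) (w' : JZero (N * q)) := h3
  rw [e1, e2]
  have a1 : weil n (s • (R - s⁻¹ • R)) (s • w) = s (weil n (R - s⁻¹ • R) w) :=
    weil_smul hn (gal N s) hx hw
  have a2 : weil n (s • pic0Alpha N q (R - s⁻¹ • R)) (s • (w' : JZero (N * q))) =
      s (weil n (pic0Alpha N q (R - s⁻¹ • R)) (w' : JZero (N * q))) :=
    weil_smul hn (gal (N * q) s) hx' (tors_smul_eq_zero _ _ w')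
  rw [a1, a2, h4]

/-- The FL statement at every level prime to `ℓ`. -/
theorem flAt (H : ExtStmt) (N ℓ : ℕ) [NeZero N] [hℓ : Fact ℓ.Prime] (hℓN : ¬ ℓ ∣ N)
    (A : ValuationSubring Qb) (hA : A.LiesOverPrime ℓ) {n : ℕ} (hn : 0 < n) : FLAt N n A := by
  have hp : ℓ.Prime := hℓ.out
  by_cases h2 : ℓ = 2
  · subst h2
    by_cases h3 : 3 ∣ N
    · obtain ⟨D, hD⟩ := Ext.exists_isQuad_h3 N h3
      exact flAt_of_ext H N 2 hℓN D hD A hA hn
    · obtain ⟨D, hD⟩ := Ext.exists_isQuad_h3 (N * 3) (Dvd.intro_left N rfl)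
      refine FLAt.descend N 3 Nat.prime_three h3 hn (flAt_of_ext H (N * 3) 2 ?_ D hD A hA hn)
      intro h
      rcases (Nat.Prime.dvd_mul Nat.prime_two).1 h with h | h
      · exact hℓN h
      · exact absurd h (by decide)
  by_cases h3 : ℓ = 3
  · subst h3
    by_cases h2' : 2 ∣ N
    · obtain ⟨D, hD⟩ := Ext.exists_isQuad_h2 N h2'
      exact flAt_of_ext H N 3 hℓN D hD A hA hn
    · obtain ⟨D, hD⟩ := Ext.exists_isQuad_h2 (N * 2) (Dvd.intro_left N rfl)
      refine FLAt.descend N 2 Nat.prime_two h2' hn (flAt_of_ext H (N * 2) 3 ?_ D hD A hA hn)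
      intro h
      rcases (Nat.Prime.dvd_mul Nat.prime_three).1 h with h | h
      · exact hℓN h
      · exact absurd h (by decide)
  · have h5 : 5 ≤ ℓ := by
      have h2le := hp.two_le
      by_contra hlt
      have h4 : ℓ = 4 := by omega
      rw [h4] at hp
      exact absurd hp (by decide)
    obtain ⟨D, hD⟩ := Ext.exists_isQuad_j N ℓ hp h5
    exact flAt_of_ext H N ℓ hℓN D hD A hA hn

/-- **The contract `LocFL`** from the deliverable of S15/Ext. -/
theorem locFL_of_ext (H : ExtStmt) (N r : ℕ) [NeZero N] (hr : r.Prime) (hrN : ¬ r ∣ N) :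
    LocFL N r := by
  intro A hA R hR w hw
  have : Fact r.Prime := ⟨hr⟩
  refine flAt H N r hrN A hA hr.pos R (fun σ _ => ?_) w ?_
  · rw [natCast_zsmul]
    exact hR σ
  · rw [natCast_zsmul]
    exact hw

end Fermat.Agent.S15.Inv

end
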