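/-
S15: the contract `LocFL N r` (Kummer cocycles are "finite flat" at `r ∤ N`).  Owner: helper259.
`Ext.isSI_weil_kummer` (helper92, S15/Ext) + `Inv.locFL_of_ext`.
-/
import Fermat.Agent.S15.Inv.Main
import Fermat.Agent.S15.Ext.Main

set_option autoImplicit false

noncomputable section

namespace Fermat.Agent.S15.Inv

theorem extStmt : ExtStmt := by
  intro M ℓ _ _ hℓ D hD A hA n hn DP hdeg hfix R hR w hw
  exact Ext.isSI_weil_kummer hℓ D hD A hA hn DP hdeg hfix hR hw

/-- **LocFL.** -/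
theorem locFL (N r : ℕ) [NeZero N] (hr : r.Prime) (hrN : ¬ r ∣ N) : LocFL N r :=
  locFL_of_ext extStmt N r hr hrN

/-- The general form (any exponent `n`, any level `N` prime to `ℓ`, division points of classes fixed by
the inertia group only). -/
theorem flAt_all (N ℓ : ℕ) [NeZero N] [Fact ℓ.Prime] (hℓN : ¬ ℓ ∣ N)
    (A : ValuationSubring Fermat.Agent.S19.Qb) (hA : A.LiesOverPrime ℓ) {n : ℕ} (hn : 0 < n) :
    FLAt N n A :=
  flAt extStmt N ℓ hℓN A hA hn

end Fermat.Agent.S15.Inv

end
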